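import Fermat.Agent.MR.C.Prep
import Fermat.Agent.MR.C.Sect
import Fermat.Agent.MR.C.F1H
import Fermat.Agent.MR.C.KFNrm

/-!
# MR / C / J / F1 : the joint [J-F1]

The export of [F1] (`Sect.lean`, `F1H.lean`) in the vocabulary of its consumers: for `P : PrepIn A M₁ p ℓ e ζ u h1` and a good partner
`h10` of `h1`:

* `PrepIn.jF1_KIH` : `h1, h10 ∈ KIH.KF A H` for every subgroup `H` (`UpH`, `ValHt`, `KIH.nrm_of_mem_KF`);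
* `PrepIn.jF1_KI`  : `h1, h10 ∈ KF A` (the `KF` of `KI.lean`; `KFNrm.nrm_of_mem_KF`);
* `PrepIn.jF1_dp`  : `∃ j j0 : ℕ, Dp A λ h1 (C j) ∧ Dp A λ h10 (C j0)` (`SepB`);
* `PrepIn.jF1_dp0` : `∃ j j0 : ℕ, Dp A λ (h1 / C ζ^j) 0 ∧ Dp A λ (h10 / C ζ^j0) 0`.
-/

set_option autoImplicit false
noncomputable section

namespace Fermat.Agent.MR.C

open ModularCurve AlgebraicCurve HahnSeries Fermat.Agent.GR Fermat.Agent.GAL Fermat.Agent.GAL.KLC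
open Fermat.Agent.S24 Fermat.Agent.TOR.GB Fermat.Agent.ORD.P2 Fermat.Agent.ORD.P3

variable {M₁ p : ℕ} [NeZero M₁] [NeZero p]
variable {A : ValuationSubring Qb} {ℓ : ℕ} [NeZero ℓ] {e : ℕ} {ζ : Qbˣ} {u h1 h10 : LaurentSeries Qb}

/-- a formal root of a modular function is of finite level. -/
theorem jF1_finLev (M : ℕ) {n : ℕ} (hn : n ≠ 0) {x : LaurentSeries Qb} (hx : x ^ n ∈ FL Qb M) :
    FinLev x := by
  obtain ⟨K, hfd, -, -, hK⟩ := exists_galois_level M hn hx ⊥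
  rw [mem_coeffField_toSubfield_iff] at hK
  exact ⟨K, hfd, hK⟩

/-- bounded type (in the sense of `KI.lean`) of a root. -/
theorem jF1_mem_KF (M : ℕ) {n : ℕ} (hn : n ≠ 0) {G x : LaurentSeries Qb} (hG : G ∈ FL Qb M)
    (hG0 : G ≠ 0) (hx : x ^ n ∈ FL Qb M) (hi : ∀ k, (G * x).coeff k ∈ A) : x ∈ KF A := by
  have hGK : G ∈ KF A := FL_le_KF M hG
  have h1 : G * x ∈ KF A :=
    mem_KF_of_intS hi ((FLev).mul_mem (finLev_of_mem_KF hGK) (jF1_finLev M hn hx))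
  have h2 := (KF A).mul_mem ((KF A).inv_mem hGK) h1
  rwa [← mul_assoc, inv_mul_cancel₀ hG0, one_mul] at h2

/-- the partner is a `p`-th root of `w_p (h1^p)`. -/
theorem PrepIn.jF1_pow0 (P : PrepIn A M₁ p ℓ e ζ u h1)
    (hG : Good (FS (M₁ * p)) (wS M₁ p) (heckeS Qb ℓ) p e h1 h10) :
    h10 ^ p = ((wq M₁ p (⟨h1 ^ p, P.kh.pow_mem⟩ : FN (M₁ * p)) : FN (M₁ * p)) : LaurentSeries Qb) := by
  obtain ⟨-, -, ⟨B, hB, hB0⟩, -⟩ := hG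
  rw [hB0, wS_apply]
  congr 2
  exact Subtype.ext hB.symm

theorem PrepIn.jF1_pow0_mem (P : PrepIn A M₁ p ℓ e ζ u h1)
    (hG : Good (FS (M₁ * p)) (wS M₁ p) (heckeS Qb ℓ) p e h1 h10) : h10 ^ p ∈ FL Qb (M₁ * p) := by
  rw [P.jF1_pow0 hG]
  exact (wq M₁ p (⟨h1 ^ p, P.kh.pow_mem⟩ : FN (M₁ * p))).2

/-- **[J-F1], raw form** (= `f1h_main` for `PrepIn`). -/
theorem PrepIn.jF1_raw (P : PrepIn A M₁ p ℓ e ζ u h1)
    (hG : Good (FS (M₁ * p)) (wS M₁ p) (heckeS Qb ℓ) p e h1 h10) :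
    ∃ G : FN (M₁ * p), G ≠ 0 ∧
      (∀ n, ((G : LaurentSeries Qb) * h1).coeff n ∈ A) ∧
      (∀ n < 0, ((G : LaurentSeries Qb) * h1).coeff n = 0) ∧
      (∀ n, (((wq M₁ p G : FN (M₁ * p)) : LaurentSeries Qb) * h10).coeff n ∈ A) ∧
      (∀ n < 0, (((wq M₁ p G : FN (M₁ * p)) : LaurentSeries Qb) * h10).coeff n = 0) ∧
      ∃ j j0 : ℕ, Dp A (lam ζ) h1 (HahnSeries.C (j : kA A)) ∧
        Dp A (lam ζ) h10 (HahnSeries.C (j0 : kA A)) :=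
  f1h_main P.hM P.hp P.hpM A P.hA P.hp2 P.hζ (⟨h1 ^ p, P.kh.pow_mem⟩ : FN (M₁ * p)) P.deep P.deep0
    P.kh.2.choose_spec rfl (P.jF1_pow0 hG)

/-- **[J-F1] (SepB)**: `h1 = 1 + λ (j + 𝔪)`, `h10 = 1 + λ (j0 + 𝔪)`. -/
theorem PrepIn.jF1_dp (P : PrepIn A M₁ p ℓ e ζ u h1)
    (hG : Good (FS (M₁ * p)) (wS M₁ p) (heckeS Qb ℓ) p e h1 h10) :
    ∃ j j0 : ℕ, Dp A (lam ζ) h1 (HahnSeries.C (j : kA A)) ∧
      Dp A (lam ζ) h10 (HahnSeries.C (j0 : kA A)) := by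
  obtain ⟨-, -, -, -, -, -, h⟩ := P.jF1_raw hG
  exact h

/-- **[J-F1] (KI.lean, KFNrm)**: `h1`, `h10` are of bounded type and finite level. -/
theorem PrepIn.jF1_KI (P : PrepIn A M₁ p ℓ e ζ u h1)
    (hG : Good (FS (M₁ * p)) (wS M₁ p) (heckeS Qb ℓ) p e h1 h10) : h1 ∈ KF A ∧ h10 ∈ KF A := by
  obtain ⟨G, hG0, i1, -, i2, -, -⟩ := P.jF1_raw hG
  have hG0' : (G : LaurentSeries Qb) ≠ 0 := fun h => hG0 (Subtype.ext h)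
  have hw0 : ((wq M₁ p G : FN (M₁ * p)) : LaurentSeries Qb) ≠ 0 := fun h =>
    hG0 ((map_eq_zero (wq M₁ p)).1 (Subtype.ext h))
  exact ⟨jF1_mem_KF (M₁ * p) P.hp.ne_zero G.2 hG0' P.kh.pow_mem i1,
    jF1_mem_KF (M₁ * p) P.hp.ne_zero (wq M₁ p G).2 hw0 (P.jF1_pow0_mem hG) i2⟩

/-- **[J-F1] (KIH.lean: UpH, ValHt)**: `h1`, `h10` are of bounded type, with finite `H`-orbits. -/
theorem PrepIn.jF1_KIH (P : PrepIn A M₁ p ℓ e ζ u h1)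
    (hG : Good (FS (M₁ * p)) (wS M₁ p) (heckeS Qb ℓ) p e h1 h10) (H : Subgroup GQ) :
    h1 ∈ KIH.KF A H ∧ h10 ∈ KIH.KF A H := by
  obtain ⟨a, b, -, -⟩ := sect_deep P.hM P.hp P.hp2 P.hpM A P.hA P.hζ H P.kh P.deep P.deep0
    (P.jF1_pow0 hG)
  exact ⟨a, b⟩

/-- **[J-F1], normalised form**: up to a `p`-th root of unity, `h1` and `h10` are `≡ 1 mod λ 𝔪`. -/
theorem PrepIn.jF1_dp0 (P : PrepIn A M₁ p ℓ e ζ u h1)
    (hG : Good (FS (M₁ * p)) (wS M₁ p) (heckeS Qb ℓ) p e h1 h10) :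
    (∃ j : ℕ, Dp A (lam ζ) (h1 / HahnSeries.C ((ζ : Qb) ^ j)) 0) ∧
      ∃ j0 : ℕ, Dp A (lam ζ) (h10 / HahnSeries.C ((ζ : Qb) ^ j0)) 0 := by
  obtain ⟨-, -, a, b⟩ := sect_deep P.hM P.hp P.hp2 P.hpM A P.hA P.hζ ⊥ P.kh P.deep P.deep0
    (P.jF1_pow0 hG)
  exact ⟨a, b⟩

/-- every element of `F(h1)` is of bounded type (both senses), and so is its image under `ι0`-type maps: the two generators. -/
theorem PrepIn.jF1_adjF_KI (P : PrepIn A M₁ p ℓ e ζ u h1)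
    (hG : Good (FS (M₁ * p)) (wS M₁ p) (heckeS Qb ℓ) p e h1 h10) {y : LaurentSeries Qb}
    (hy : y ∈ adjF (FS (M₁ * p)) h1) : y ∈ KF A :=
  adjF_induction (P := fun x _ => x ∈ KF A) (P.jF1_KI hG).1 (fun f => FL_le_KF (M₁ * p) f.2)
    (fun _ _ _ _ => add_mem) (fun _ _ => inv_mem) (fun _ _ _ _ => mul_mem) hy

theorem PrepIn.jF1_adjF_KIH (P : PrepIn A M₁ p ℓ e ζ u h1)
    (hG : Good (FS (M₁ * p)) (wS M₁ p) (heckeS Qb ℓ) p e h1 h10) (H : Subgroup GQ)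
    {y : LaurentSeries Qb} (hy : y ∈ adjF (FS (M₁ * p)) h1) : y ∈ KIH.KF A H :=
  adjF_induction (P := fun x _ => x ∈ KIH.KF A H) (P.jF1_KIH hG H).1
    (fun f => KIH.FL_le_KF (M₁ * p) f.2)
    (fun _ _ _ _ => add_mem) (fun _ _ => inv_mem) (fun _ _ _ _ => mul_mem) hy

/-- the expansion at the cusp `0` of an element of the cover is of bounded type (`KI.lean`). -/
theorem PrepIn.jF1_ι0_KI (P : PrepIn A M₁ p ℓ e ζ u h1)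
    (hG : Good (FS (M₁ * p)) (wS M₁ p) (heckeS Qb ℓ) p e h1 h10) {I : Subgroup GQ}
    (H : CovHyp I (FS (M₁ * p)) (wS M₁ p) p (ζ : Qb) h1 h10) (y : adjF (FS (M₁ * p)) h1) :
    H.ι0 y ∈ KF A := by
  obtain ⟨y, hy⟩ := y
  refine adjF_induction (P := fun x hx => H.ι0 ⟨x, hx⟩ ∈ KF A) ?_ ?_ ?_ ?_ ?_ hy
  · rw [H.ι0_h]; exact (P.jF1_KI hG).2
  · intro f
    rw [H.ι0_F]; exact FL_le_KF (M₁ * p) (wS_mem f)
  · intro x y hx hy h h'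
    have e : (⟨x + y, add_mem hx hy⟩ : adjF (FS (M₁ * p)) h1) = ⟨x, hx⟩ + ⟨y, hy⟩ := rfl
    rw [e, map_add]; exact add_mem h h'
  · intro x hx h
    have e : (⟨x⁻¹, inv_mem hx⟩ : adjF (FS (M₁ * p)) h1) = (⟨x, hx⟩ : adjF (FS (M₁ * p)) h1)⁻¹ := rfl
    rw [e, map_inv₀]; exact inv_mem h
  · intro x y hx hy h h'
    have e : (⟨x * y, mul_mem hx hy⟩ : adjF (FS (M₁ * p)) h1) = ⟨x, hx⟩ * ⟨y, hy⟩ := rfl
    rw [e, map_mul]; exact mul_mem h h'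

/-- the expansion at the cusp `0` of an element of the cover is of bounded type (`KIH.lean`). -/
theorem PrepIn.jF1_ι0_KIH (P : PrepIn A M₁ p ℓ e ζ u h1)
    (hG : Good (FS (M₁ * p)) (wS M₁ p) (heckeS Qb ℓ) p e h1 h10) {I : Subgroup GQ}
    (H : CovHyp I (FS (M₁ * p)) (wS M₁ p) p (ζ : Qb) h1 h10) (H' : Subgroup GQ)
    (y : adjF (FS (M₁ * p)) h1) : H.ι0 y ∈ KIH.KF A H' := by
  obtain ⟨y, hy⟩ := y
  refine adjF_induction (P := fun x hx => H.ι0 ⟨x, hx⟩ ∈ KIH.KF A H') ?_ ?_ ?_ ?_ ?_ hy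
  · rw [H.ι0_h]; exact (P.jF1_KIH hG H').2
  · intro f
    rw [H.ι0_F]; exact KIH.FL_le_KF (M₁ * p) (wS_mem f)
  · intro x y hx hy h h'
    have e : (⟨x + y, add_mem hx hy⟩ : adjF (FS (M₁ * p)) h1) = ⟨x, hx⟩ + ⟨y, hy⟩ := rfl
    rw [e, map_add]; exact add_mem h h'
  · intro x hx h
    have e : (⟨x⁻¹, inv_mem hx⟩ : adjF (FS (M₁ * p)) h1) = (⟨x, hx⟩ : adjF (FS (M₁ * p)) h1)⁻¹ := rfl
    rw [e, map_inv₀]; exact inv_mem h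
  · intro x y hx hy h h'
    have e : (⟨x * y, mul_mem hx hy⟩ : adjF (FS (M₁ * p)) h1) = ⟨x, hx⟩ * ⟨y, hy⟩ := rfl
    rw [e, map_mul]; exact mul_mem h h'

/-- **[J-NRM], branch `∞`**: every non-zero element of the cover is normalisable (hypothesis `he` of `gaussV`). -/
theorem PrepIn.jF1_nrm_oo (P : PrepIn A M₁ p ℓ e ζ u h1)
    (hG : Good (FS (M₁ * p)) (wS M₁ p) (heckeS Qb ℓ) p e h1 h10)
    (y : adjF (FS (M₁ * p)) h1) (hy : y ≠ 0) : Nrm A (y : LaurentSeries Qb) :=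
  nrm_of_mem_KF P.hp P.hA (P.jF1_adjF_KI hG y.2) fun h => hy (Subtype.ext h)

/-- **[J-NRM], branch `0`**. -/
theorem PrepIn.jF1_nrm_zr (P : PrepIn A M₁ p ℓ e ζ u h1)
    (hG : Good (FS (M₁ * p)) (wS M₁ p) (heckeS Qb ℓ) p e h1 h10) {I : Subgroup GQ}
    (H : CovHyp I (FS (M₁ * p)) (wS M₁ p) p (ζ : Qb) h1 h10)
    (y : adjF (FS (M₁ * p)) h1) (hy : y ≠ 0) : Nrm A (H.ι0 y) :=
  nrm_of_mem_KF P.hp P.hA (P.jF1_ι0_KI hG H y) ((map_ne_zero H.ι0).2 hy)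

end Fermat.Agent.MR.C
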