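import Fermat.Agent.MR.A.GlueD
import Fermat.Agent.MR.A.GlueE
import Fermat.Agent.MR.C.CovEC
import Fermat.Agent.MR.C.GVRed
import Fermat.Agent.MR.TH.Final

/-!
# MR / C / J / R0 : THE CONCRETE COVER over the base chart `TH.base`, plugged into `A.pdiv_of_cover`

`N = M₁ p`, `I = IA A`, `E₀ = EC A N`, `B₀ = BT`, `E = fixS I (adjF (FS N) h1)`.
* `epsT H j`  : the two embeddings `F1 → ℚ̄((q))` (inclusion at `oo`, `H.ι0` at `zr`);   `eT H j` their restrictions to `E`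
* `VT H he j` : the Gauss valuations along `eT H j`;   `vtT H he = vtOf p H.δC (VT H he)` the `2p` vertical valuations
* `VT_algebraMap` : [J-EXT]   `VT j` extends `vT j`
* `covT`      : the instance of `Cov` from (SEP)
* `pdivT`     : [J-R0] + [J-HG] : `W ∈ E` with all `2p` valuations `= 1`, `W = u^p b^p`  ⟹  `PDiv (Rb A M₁) p ab`
-/

set_option autoImplicit false

open ModularCurve AlgebraicCurve

noncomputable section

namespace Fermat.Agent.MR.C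

open Fermat.Agent.GR Fermat.Agent.GAL Fermat.Agent.GAL.KL Fermat.Agent.GAL.KLC Fermat.Agent.S24
open Fermat.Agent.GR.HeckeField Fermat.Agent.TOR Fermat.Agent.TOR.GB Fermat.Agent.TOR.T1C
open Fermat.Agent.CAR Fermat.Agent.CAR.BK Fermat.Agent.CAR.ON Fermat.Agent.CAR.CNT
open Fermat.Agent.CAR.DESC Fermat.Agent.MR.TH Fermat.Agent.MR.A Fermat.Agent.DSC

local notation "Λ" => LaurentSeries Qb

section Gen

variable {I : Subgroup GQ} {N : ℕ} {w : FS N →+* Λ} {p : ℕ} {ζ : Qb} {h1 h10 : Λ}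

/-- the two embeddings of `F1 = F(h₁)` into `ℚ̄((q))`. -/
def epsT (H : CovHyp I (FS N) w p ζ h1 h10) : I2 → adjF (FS N) h1 →+* Λ
  | none => (adjF (FS N) h1).subtype
  | some _ => H.ι0

theorem epsT_oo (H : CovHyp I (FS N) w p ζ h1 h10) (x : adjF (FS N) h1) : epsT H oo x = x := rfl

theorem epsT_zr (H : CovHyp I (FS N) w p ζ h1 h10) (x : adjF (FS N) h1) :
    epsT H zr x = H.ι0 x := rfl

/-- their restrictions to `E = F1^I`. -/
def eT (H : CovHyp I (FS N) w p ζ h1 h10) (j : I2) : fixS I (adjF (FS N) h1) →+* Λ :=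
  (epsT H j).comp (Subfield.inclusion (fixS_le I (adjF (FS N) h1)))

theorem eT_apply (H : CovHyp I (FS N) w p ζ h1 h10) (j : I2) (x : fixS I (adjF (FS N) h1)) :
    eT H j x = epsT H j (toF1 x) := rfl

theorem eT_oo (H : CovHyp I (FS N) w p ζ h1 h10) (x : fixS I (adjF (FS N) h1)) :
    eT H oo x = x := rfl

/-- the constants. -/
theorem epsT_C (H : CovHyp I (FS N) w p ζ h1 h10) (hw : ∀ c : Qb, w ⟨HahnSeries.C c, H.C_mem c⟩ = HahnSeries.C c)
    (j : I2) (c : Qb) : epsT H j ⟨HahnSeries.C c, le_adjF _ _ (H.C_mem c)⟩ = HahnSeries.C c := by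
  rcases I2_cases j with rfl | rfl
  · rfl
  · rw [epsT_zr]
    exact (H.ι0_F ⟨HahnSeries.C c, H.C_mem c⟩).trans (hw c)

/-- Galois equivariance. -/
theorem galS_epsT (H : CovHyp I (FS N) w p ζ h1 h10) (j : I2) (τ : GQ) (hτ : τ ∈ I)
    (x : adjF (FS N) h1) : galS τ (epsT H j x) = epsT H j ⟨galS τ x, H.gal_mem τ hτ x⟩ := by
  rcases I2_cases j with rfl | rfl
  · rfl
  · exact H.gal_ι τ hτ x

end Gen

section Conc

variable {M₁ p : ℕ} [NeZero M₁] [NeZero p] (A : ValuationSubring Qb)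
  {w : FS (M₁ * p) →+* Λ} {ζ : Qb} {h1 h10 : Λ}
  (H : CovHyp (IA A) (FS (M₁ * p)) w p ζ h1 h10)
  (he : ∀ (j : I2) (x : adjF (FS (M₁ * p)) h1), x ≠ 0 → Nrm A (epsT H j x))

include he in
theorem nrm_eT (j : I2) (x : fixS (IA A) (adjF (FS (M₁ * p)) h1)) (hx : x ≠ 0) :
    Nrm A (eT H j x) :=
  he j (toF1 x) (fun h => hx (Subtype.ext (congrArg (Subtype.val : adjF (FS (M₁ * p)) h1 → Λ) h)))

/-- the Gauss valuations of `E` along the two embeddings. -/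
def VT (j : I2) :
    Valuation (fixS (IA A) (adjF (FS (M₁ * p)) h1)) (Ov A (M₁ * p)).ValueGroup :=
  gaussV (vcG_le_one_iff (M₁ * p)) (eT H j) (nrm_eT A H he j)

/-- the `2p` vertical valuations of `E`. -/
def vtT : I2 × ZMod p →
    Valuation (fixS (IA A) (adjF (FS (M₁ * p)) h1)) (Ov A (M₁ * p)).ValueGroup :=
  vtOf p H.δC (VT A H he)

theorem VT_le_one_iff (j : I2) {x : fixS (IA A) (adjF (FS (M₁ * p)) h1)} :
    VT A H he j x ≤ 1 ↔ ∃ φ, HasRed A (epsT H j (toF1 x)) φ :=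
  gaussV_le_one_iff _ _ _

theorem VT_lt_one_iff (j : I2) {x : fixS (IA A) (adjF (FS (M₁ * p)) h1)} :
    VT A H he j x < 1 ↔ HasRed A (epsT H j (toF1 x)) 0 :=
  gaussV_lt_one_iff _ _ _

theorem vtT_apply (j : I2) (k : ZMod p) (x : fixS (IA A) (adjF (FS (M₁ * p)) h1)) :
    vtT A H he (j, k) x = VT A H he j ((H.δC ^ k.val) x) := rfl

theorem vtT_zero (j : I2) (x : fixS (IA A) (adjF (FS (M₁ * p)) h1)) :
    vtT A H he (j, 0) x = VT A H he j x := by
  rw [vtT_apply, ZMod.val_zero, pow_zero, AlgEquiv.one_apply]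

/-- **[J-EXT]** `VT j` extends the vertical valuation `vT j` of the base. -/
theorem VT_algebraMap
    (hw : ∀ f : FS (M₁ * p), w f = ((wq M₁ p (⟨f.1, f.2⟩ : FN (M₁ * p)) : FN (M₁ * p)) : Λ))
    (j : I2) (x : EC A (M₁ * p)) :
    VT A H he j (algebraMap (EC A (M₁ * p)) (fixS (IA A) (adjF (FS (M₁ * p)) h1)) x)
      = vT M₁ p A j x := by
  refine gaussV_eq_vG _ (M₁ * p) (wj (wq M₁ p) j (x : FN (M₁ * p))) ?_ _
  rcases I2_cases j with rfl | rfl
  · rfl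
  · exact (H.ι0_F ⟨((x : FN (M₁ * p)) : Λ), (x : FN (M₁ * p)).2⟩).trans (hw _)

/-- **the concrete cover**, from (SEP). -/
theorem covT [Fact p.Prime] (hA : A.LiesOverPrime p)
    (hw : ∀ f : FS (M₁ * p), w f = ((wq M₁ p (⟨f.1, f.2⟩ : FN (M₁ * p)) : FN (M₁ * p)) : Λ))
    (sep : ∀ (i : I2) (k l : ZMod p), k ≠ l →
      ∃ b : fixS (IA A) (adjF (FS (M₁ * p)) h1), IsIntegral (BT M₁ p A) b ∧
        vtT A H he (i, l) b < 1 ∧ vtT A H he (i, k) (b - 1) < 1) :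
    Cov p (BT M₁ p A) (vT M₁ p A) H.δC (vtT A H he) where
  pow := H.δC_pow
  fix := H.δC_fix
  ext := vtOf_ext p H.δC (VT_algebraMap A H he hw)
  shift := vtOf_shift H.δC_pow_p _
  arch := vtOf_arch p H.δC (fun _ => gaussV_arch _ _ _ (vcG_arch _ Fact.out hA))
  sep := sep

/-- **[J-R0] + [J-HG] : the upper end of `MR.CStatement`.**  `W ∈ E` with all `2p` vertical valuations `= 1` and `W = u^p b^p`, `b ∈ F1`. -/
theorem pdivT [Fact p.Prime] (hM : AdmLevel M₁) (hpM : ¬ p ∣ M₁) (hA : A.LiesOverPrime p)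
    (hw : ∀ f : FS (M₁ * p), w f = ((wq M₁ p (⟨f.1, f.2⟩ : FN (M₁ * p)) : FN (M₁ * p)) : Λ))
    (sep : ∀ (i : I2) (k l : ZMod p), k ≠ l →
      ∃ b : fixS (IA A) (adjF (FS (M₁ * p)) h1), IsIntegral (BT M₁ p A) b ∧
        vtT A H he (i, l) b < 1 ∧ vtT A H he (i, k) (b - 1) < 1)
    {W : fixS (IA A) (adjF (FS (M₁ * p)) h1)} (hW : ∀ b, vtT A H he b W = 1)
    {u b : Λ} (hu : IsKum Qb (M₁ * p) p u) (hb : b ∈ adjF (FS (M₁ * p)) h1) (hb0 : b ≠ 0)
    (hWb : (W : Λ) = u ^ p * b ^ p)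
    {c : Qb} {ab : LaurentSeries (kA A)} (hab : HasRed A (HahnSeries.C c * u ^ p) ab)
    (hab0 : ab ≠ 0) : PDiv (Rb A M₁) p ab := by
  have hp : p.Prime := Fact.out
  have C := covT A H he hA hw sep
  have hB := TH.base A hM hp hpM hA
  have L := lvl A M₁ p hp hpM
  have X := xDat M₁ p hp A hA (spansStatement M₁) (riStatement M₁) (ctStatement M₁ p hM hp hpM A hA)
  have htr : Transcendental Qb (tQ M₁ p) := T1.transcendental_tt L X
  have HG := H.hg hB C (t := tQ M₁ p) htr (tQ_mem_EC A)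
    (fun z hz hv => mem_B2.2 ⟨hz, hv oo, hv zr⟩) (mem_B2.1 (piT M₁ p A).2).1 hu hb hb0 hWb
  obtain ⟨c'', -, ψ, hψ, hbr⟩ := he oo ⟨b, hb⟩ (fun h => hb0 (congrArg Subtype.val h))
  refine pdiv_of_cover M₁ p A hB C hW HG oo 0 (eT H oo) ?_ ?_ (r0T A hM hp hpM hA)
    (r0T_surjective A hM hp hpM hA) (hasRed_r0T A hM hp hpM hA) (H := u ^ p) (b := b) (c' := 1)
    ?_ hbr hψ hab hab0
  · intro x hx
    rw [vtT_zero] at hx
    exact (VT_le_one_iff A H he oo).1 hx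
  · intro x
    rw [vtT_zero]
    exact VT_lt_one_iff A H he oo
  · rw [map_one, one_mul]
    exact hWb

end Conc

end Fermat.Agent.MR.C
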