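import Fermat.Agent.MR.C.J.R0
import Fermat.Agent.MR.C.SepOrb
import Fermat.Agent.MR.C.ASLift

/-!
# MR / C / J / SepJ : (SEP) for the concrete cover, in the vocabulary of `J/R0.lean`

`sepJ_sep` : the hypothesis `sep` of `covT` / `pdivT` VERBATIM, from
* `sepData` (`ASLift.lean`) : `G`, `f`, `θ`, `θ'`,
* `CovHyp.sepOrb_of_const` (`SepOrb.lean`) : orbit product + integrality,
* `Dp A λ h₁ (C j)`, `Dp A λ h₁₀ (C j₀)` (block [F1]).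
-/

set_option autoImplicit false

open ModularCurve AlgebraicCurve

noncomputable section

namespace Fermat.Agent.MR.C

open Fermat.Agent.GR Fermat.Agent.GAL Fermat.Agent.GAL.KL Fermat.Agent.GAL.KLC Fermat.Agent.S24
open Fermat.Agent.GR.HeckeField Fermat.Agent.TOR Fermat.Agent.TOR.GB Fermat.Agent.TOR.T1C
open Fermat.Agent.CAR Fermat.Agent.CAR.BK Fermat.Agent.CAR.ON Fermat.Agent.CAR.CNT
open Fermat.Agent.CAR.DESC Fermat.Agent.MR.TH Fermat.Agent.MR.A Fermat.Agent.DSC Fermat.Agent.ORD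

local notation "Λ" => LaurentSeries Qb

section Gen

variable {I : Subgroup GQ} {N : ℕ} {w : FS N →+* Λ} {p : ℕ} {ζ : Qb} {h1 h10 : Λ}

/-- the element `(G h₁ - 1) c - θ` of `F1`. -/
def sepJ_y (H : CovHyp I (FS N) w p ζ h1 h10) (G θ : FS N) (c : Qb) : adjF (FS N) h1 :=
  (⟨G, le_adjF _ _ G.2⟩ * ⟨h1, self_mem_adjF _ _⟩ - 1) * ⟨HahnSeries.C c, le_adjF _ _ (H.C_mem c)⟩
    - ⟨θ, le_adjF _ _ θ.2⟩

theorem sepJ_coe_y (H : CovHyp I (FS N) w p ζ h1 h10) (G θ : FS N) (c : Qb) :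
    (sepJ_y H G θ c : Λ) = ((G : Λ) * h1 - 1) * HahnSeries.C c - (θ : Λ) := rfl

theorem sepJ_deck_h (H : CovHyp I (FS N) w p ζ h1 h10) (m : ℕ) :
    (H.kum.deck ^ m) ⟨h1, self_mem_adjF _ _⟩
      = ⟨HahnSeries.C ζ, le_adjF _ _ (H.C_mem ζ)⟩ ^ m * ⟨h1, self_mem_adjF _ _⟩ :=
  Subtype.ext (H.kum.deck_pow_h m)

theorem sepJ_eps_y (H : CovHyp I (FS N) w p ζ h1 h10) (ε : adjF (FS N) h1 →+* Λ) (m : ℕ)
    (G θ : FS N) (c : Qb) :
    ε ((H.kum.deck ^ m) (sepJ_y H G θ c))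
      = (ε ⟨G, le_adjF _ _ G.2⟩ * (ε ⟨HahnSeries.C ζ, le_adjF _ _ (H.C_mem ζ)⟩ ^ m
          * ε ⟨h1, self_mem_adjF _ _⟩) - 1) * ε ⟨HahnSeries.C c, le_adjF _ _ (H.C_mem c)⟩
        - ε ⟨θ, le_adjF _ _ θ.2⟩ := by
  have e1 := H.kum.deck_pow_F m G
  have e2 := H.kum.deck_pow_F m θ
  have e3 : (H.kum.deck ^ m) ⟨HahnSeries.C c, le_adjF _ _ (H.C_mem c)⟩
      = ⟨HahnSeries.C c, le_adjF _ _ (H.C_mem c)⟩ := H.kum.deck_pow_F m ⟨HahnSeries.C c, H.C_mem c⟩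
  unfold sepJ_y
  simp only [map_sub, map_mul, map_one]
  rw [e1, e2, e3, sepJ_deck_h H]
  simp only [map_mul, map_pow]

end Gen

section Conc

variable {M₁ p : ℕ} [NeZero M₁] [NeZero p] (A : ValuationSubring Qb)
  {w : FS (M₁ * p) →+* Λ} {ζ : Qbˣ} {h1 h10 : Λ}
  (H : CovHyp (IA A) (FS (M₁ * p)) w p (ζ : Qb) h1 h10)

include H in
theorem sepJ_wC
    (hw : ∀ f : FS (M₁ * p), w f = ((wq M₁ p (⟨f.1, f.2⟩ : FN (M₁ * p)) : FN (M₁ * p)) : Λ))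
    (c : Qb) : w ⟨HahnSeries.C c, H.C_mem c⟩ = HahnSeries.C c := by
  rw [hw]
  have e : (⟨HahnSeries.C c, H.C_mem c⟩ : FN (M₁ * p)) = algebraMap Qb (FL Qb (M₁ * p)) c :=
    Subtype.ext (ValThm_coe_algebraMap (M₁ * p) c).symm
  show ((wq M₁ p (⟨HahnSeries.C c, H.C_mem c⟩ : FN (M₁ * p)) : FN (M₁ * p)) : Λ) = _
  rw [e, AlgEquiv.commutes, ValThm_coe_algebraMap]

/-- `ζ^m = 1 + λ (m + 𝔪)`. -/
theorem sepJ_dp_zeta (hp : p.Prime) (hA : A.LiesOverPrime p) (hζ : IsPrimitiveRoot ζ p) (m : ℕ) :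
    P2.Dp A (P2.lam ζ) (HahnSeries.C (ζ : Qb) ^ m) (HahnSeries.C (m : kA A)) := by
  have hl : P2.lam ζ ≠ 0 := P2.lam_ne_zero hp hζ
  have hlm : P2.lam ζ ∈ A.nonunits := P2.lam_mem_nonunits hp hA hζ.pow_eq_one
  have h1 : P2.Dp A (P2.lam ζ) (HahnSeries.C (ζ : Qb)) (HahnSeries.C (1 : kA A)) := by
    have := P2.Dp.const (A := A) (ε := P2.lam ζ) hl P2.CRed.one
    rwa [mul_one, show (1 : Qb) + P2.lam ζ = ζ by unfold P2.lam; ring] at this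
  have := h1.pow hl hlm m
  rwa [nsmul_eq_mul, map_one, mul_one, ← map_natCast (HahnSeries.C : kA A →+* _)] at this

/-- the reduction on a branch. -/
theorem sepJ_branch (hp : p.Prime) (hA : A.LiesOverPrime p) (hζ : IsPrimitiveRoot ζ p)
    {G h : Λ} {a : LaurentSeries (kA A)} {j : ℕ} (hG : P2.Dp A (P2.lam ζ) G a)
    (hh : P2.Dp A (P2.lam ζ) h (HahnSeries.C (j : kA A))) (m : ℕ) :
    HasRed A ((G * (HahnSeries.C (ζ : Qb) ^ m * h) - 1) * HahnSeries.C (P2.lam ζ)⁻¹)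
      (a + (HahnSeries.C (m : kA A) + HahnSeries.C (j : kA A))) := by
  have hl : P2.lam ζ ≠ 0 := P2.lam_ne_zero hp hζ
  have hlm : P2.lam ζ ∈ A.nonunits := P2.lam_mem_nonunits hp hA hζ.pow_eq_one
  have := hG.mul hl hlm ((sepJ_dp_zeta A hp hA hζ m).mul hl hlm hh)
  unfold P2.Dp at this
  rwa [div_eq_mul_inv, ← map_inv₀] at this

/-- **(SEP) for the concrete cover** = the hypothesis `sep` of `covT` / `pdivT`. -/
theorem sepJ_sep [Fact p.Prime] (hM : AdmLevel M₁) (hp2 : p ≠ 2) (hpM : ¬ p ∣ M₁)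
    (hA : A.LiesOverPrime p) (hζ : IsPrimitiveRoot ζ p)
    (he : ∀ (j : I2) (x : adjF (FS (M₁ * p)) h1), x ≠ 0 → Nrm A (epsT H j x))
    (hw : ∀ f : FS (M₁ * p), w f = ((wq M₁ p (⟨f.1, f.2⟩ : FN (M₁ * p)) : FN (M₁ * p)) : Λ))
    (hK : IsKum Qb (M₁ * p) p h1)
    (hW1 : P2.Dp A (P2.lam ζ ^ p) (h1 ^ p) 0) (hW2 : P2.Dp A (P2.lam ζ ^ p) (h10 ^ p) 0)
    {j j0 : ℕ} (hj : P2.Dp A (P2.lam ζ) h1 (HahnSeries.C (j : kA A)))
    (hj0 : P2.Dp A (P2.lam ζ) h10 (HahnSeries.C (j0 : kA A))) :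
    ∀ (i : I2) (k l : ZMod p), k ≠ l →
      ∃ b : fixS (IA A) (adjF (FS (M₁ * p)) h1), IsIntegral (BT M₁ p A) b ∧
        vtT A H he (i, l) b < 1 ∧ vtT A H he (i, k) (b - 1) < 1 := by
  have hp : p.Prime := Fact.out
  have hchar : CharP (kA A) p := charP_residueField hp hA
  have hl : P2.lam ζ ≠ 0 := P2.lam_ne_zero hp hζ
  obtain ⟨hK0, hKm, hKd⟩ := hK
  have hpow0 : h10 ^ p = ((wq M₁ p (⟨h1 ^ p, hKm⟩ : FN (M₁ * p)) : FN (M₁ * p)) : Λ) :=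
    H.pow0.trans (hw _)
  obtain ⟨G, f, θ, θ', a, a', hG0, hGf, hfi, hf1, hf2, hGa, hGa', t1, t2, t3, t1', t2', t3'⟩ :=
    sepData M₁ p hM hp hp2 hpM A hA hζ ⟨h1 ^ p, hKm⟩ hW1 (hpow0 ▸ hW2) hKd
  have hwC := sepJ_wC A H hw
  -- the elements of `FS`
  let G' : FS (M₁ * p) := ⟨(G : Λ), G.2⟩
  -- integrality of `z_Q`
  have hCint : ∀ c : Qb, IsInt Qb ((tQ M₁ p : FN (M₁ * p)) : Λ) (HahnSeries.C c : Λ) := by
    intro c
    rw [← hgc_algebraMap]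
    exact IsInt.algebraMap c
  have hGh : IsInt Qb ((tQ M₁ p : FN (M₁ * p)) : Λ) ((G : Λ) * h1) := by
    refine IsInt.of_pow hp.pos ?_
    have e1 : ((G : Λ) * h1) ^ p = 1 + HahnSeries.C (P2.lam ζ ^ p) * (f : Λ) := by
      have := congrArg (fun z : FL Qb (M₁ * p) => (z : Λ)) hGf
      rw [mul_pow, ← ValThm_coe_algebraMap (M₁ * p) (P2.lam ζ ^ p)]
      exact this
    rw [e1]
    exact IsInt.one.add ((hCint _).mul (hgc_isInt_coe hfi))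
  have hyint : ∀ τ : FN (M₁ * p), IsInt Qb (tP M₁ p) τ →
      IsInt Qb ((tQ M₁ p : FN (M₁ * p)) : Λ)
        (sepJ_y H G' ⟨(τ : Λ), τ.2⟩ (P2.lam ζ)⁻¹ : Λ) := by
    intro τ hτ
    rw [sepJ_coe_y]
    exact ((hGh.sub IsInt.one).mul (hCint _)).sub (hgc_isInt_coe hτ)
  -- the two expansions
  have hoo : ∀ (τ : FN (M₁ * p)) (m : ℕ),
      epsT H oo ((H.kum.deck ^ m) (sepJ_y H G' ⟨(τ : Λ), τ.2⟩ (P2.lam ζ)⁻¹))
        = ((G : Λ) * (HahnSeries.C (ζ : Qb) ^ m * h1) - 1) * HahnSeries.C (P2.lam ζ)⁻¹ - (τ : Λ) := by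
    intro τ m
    rw [sepJ_eps_y]
    rfl
  have hzr : ∀ (τ : FN (M₁ * p)) (m : ℕ),
      epsT H zr ((H.kum.deck ^ m) (sepJ_y H G' ⟨(τ : Λ), τ.2⟩ (P2.lam ζ)⁻¹))
        = (((wq M₁ p G : FN (M₁ * p)) : Λ) * (HahnSeries.C (ζ : Qb) ^ m * h10) - 1)
            * HahnSeries.C (P2.lam ζ)⁻¹ - ((wq M₁ p τ : FN (M₁ * p)) : Λ) := by
    intro τ m
    rw [sepJ_eps_y, epsT_C H hwC, epsT_C H hwC]
    simp only [epsT_zr]
    rw [H.ι0_h, H.ι0_F G', H.ι0_F ⟨(τ : Λ), τ.2⟩, hw, hw]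
  have hbo := fun m => sepJ_branch A hp hA hζ hGa hj m
  have hbz := fun m => sepJ_branch A hp hA hζ hGa' hj0 m
  obtain ⟨φ3, hφ3⟩ := (ValThm_le_one_iff A (M₁ * p)).1 t3
  obtain ⟨φ3', hφ3'⟩ := (ValThm_le_one_iff A (M₁ * p)).1 t3'
  have hκ : ∀ (c : ℕ) (k l : ZMod p), k ≠ l →
      ((k.val : kA A) + (c : kA A)) ≠ ((l.val : kA A) + (c : kA A)) := by
    intro c k l hkl h
    apply hkl
    have h2 : ((k.val : ℕ) : kA A) = ((l.val : ℕ) : kA A) := add_right_cancel h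
    rw [CharP.natCast_eq_natCast (kA A) p] at h2
    have h3 := (ZMod.natCast_eq_natCast_iff _ _ _).2 h2
    rwa [ZMod.natCast_zmod_val, ZMod.natCast_zmod_val] at h3
  intro i k l hkl
  rcases I2_cases i with rfl | rfl
  · refine H.sepOrb_of_const (A := A) le_rfl (epsT H) (epsT_C H hwC) (galS_epsT H) (VT A H he)
      (VT_algebraMap A H he hw) (fun j x => (VT_le_one_iff A H he j).2)
      (fun j x => (VT_lt_one_iff A H he j).2) (t := tQ M₁ p) (tQ_mem_EC A)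
      (fun z hz hv => mem_B2.2 ⟨hz, hv oo, hv zr⟩)
      (sepJ_y H G' ⟨(θ : Λ), θ.2⟩ (P2.lam ζ)⁻¹) (hyint θ t1) ?_ oo
      (fun m => (m : kA A) + (j : kA A)) ?_ k l (hκ j k l hkl)
    · intro j' m
      rcases I2_cases j' with rfl | rfl
      · rw [hoo, sub_eq_add_neg]
        exact ⟨_, (hbo m).add (hasRed_neg t2)⟩
      · rw [hzr, sub_eq_add_neg]
        exact ⟨_, (hbz m).add (hasRed_neg hφ3)⟩
    · intro m
      rw [hoo, sub_eq_add_neg]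
      have := (hbo m).add (hasRed_neg t2)
      rwa [add_comm a, add_assoc, add_neg_cancel, add_zero, ← map_add] at this
  · refine H.sepOrb_of_const (A := A) le_rfl (epsT H) (epsT_C H hwC) (galS_epsT H) (VT A H he)
      (VT_algebraMap A H he hw) (fun j x => (VT_le_one_iff A H he j).2)
      (fun j x => (VT_lt_one_iff A H he j).2) (t := tQ M₁ p) (tQ_mem_EC A)
      (fun z hz hv => mem_B2.2 ⟨hz, hv oo, hv zr⟩)
      (sepJ_y H G' ⟨(θ' : Λ), θ'.2⟩ (P2.lam ζ)⁻¹) (hyint θ' t1') ?_ zr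
      (fun m => (m : kA A) + (j0 : kA A)) ?_ k l (hκ j0 k l hkl)
    · intro j' m
      rcases I2_cases j' with rfl | rfl
      · rw [hoo, sub_eq_add_neg]
        exact ⟨_, (hbo m).add (hasRed_neg hφ3')⟩
      · rw [hzr, sub_eq_add_neg]
        exact ⟨_, (hbz m).add (hasRed_neg t2')⟩
    · intro m
      rw [hzr, sub_eq_add_neg]
      have := (hbz m).add (hasRed_neg t2')
      rwa [add_comm a', add_assoc, add_neg_cancel, add_zero, ← map_add] at this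

end Conc

end Fermat.Agent.MR.C
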