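import Fermat.Agent.MR.C.J.R0
import Fermat.Agent.MR.C.SepOrb
import Fermat.Agent.MR.C.ASLift
import Fermat.Agent.MR.C.F1H
import Fermat.Agent.MR.C.Prep

/-!
# MR / C / J / SepT : (SEP) in the vocabulary of `J/R0.lean` (hypothesis `sep` of `covT` / `pdivT`, verbatim)

`y_i = (G h₁ - 1)/λ - θ_i` (`G, θ_∞, θ_0` from `ASLift.sepData`, `h₁ ≡ 1 + λ j`, `h₁₀ ≡ 1 + λ j₀` from `F1H.f1h_main`), plugged into
`SepOrb.sepOrb_of_const`.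
-/

set_option autoImplicit false

open ModularCurve AlgebraicCurve

noncomputable section

namespace Fermat.Agent.MR.C

open Fermat.Agent.GR Fermat.Agent.GAL Fermat.Agent.GAL.KL Fermat.Agent.GAL.KLC Fermat.Agent.S24
open Fermat.Agent.GR.HeckeField Fermat.Agent.TOR Fermat.Agent.TOR.GB Fermat.Agent.TOR.T1C
open Fermat.Agent.CAR Fermat.Agent.CAR.BK Fermat.Agent.CAR.ON Fermat.Agent.CAR.CNT
open Fermat.Agent.CAR.DESC Fermat.Agent.MR.TH Fermat.Agent.MR.A Fermat.Agent.DSC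
open Fermat.Agent.ORD

local notation "Λ" => LaurentSeries Qb

/-- the series computation: `G ≡ 1 + λ a`, `h ≡ 1 + λ n`  ⟹  `(G ζ^m h - 1)/λ ≡ a + m + n`. -/
theorem sepT_red {p : ℕ} (hp : p.Prime) {A : ValuationSubring Qb} (hA : A.LiesOverPrime p)
    {ζ : Qbˣ} (hζ : IsPrimitiveRoot ζ p) {G h : Λ} {a : LaurentSeries (kA A)} {n : ℕ}
    (hG : P2.Dp A (P2.lam ζ) G a) (hh : P2.Dp A (P2.lam ζ) h (HahnSeries.C (n : kA A))) (m : ℕ) :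
    HasRed A ((G * (HahnSeries.C (ζ : Qb) ^ m * h) - 1) / HahnSeries.C (P2.lam ζ))
      (a + HahnSeries.C ((m + n : ℕ) : kA A)) := by
  have hl := P2.lam_ne_zero hp hζ
  have hm := P2.lam_mem_nonunits hp hA hζ.pow_eq_one
  have h1 : P2.Dp A (P2.lam ζ) (HahnSeries.C (ζ : Qb)) (HahnSeries.C (1 : kA A)) := by
    have := P2.Dp.const (A := A) hl (P2.CRed.one)
    rwa [mul_one, show (1 : Qb) + P2.lam ζ = ζ from by unfold P2.lam; ring] at this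
  have h2 := hG.mul hl hm ((h1.pow hl hm m).mul hl hm hh)
  have e : a + (m • HahnSeries.C (1 : kA A) + HahnSeries.C (n : kA A))
      = a + HahnSeries.C ((m + n : ℕ) : kA A) := by
    rw [nsmul_eq_mul, Nat.cast_add, map_add, map_one, mul_one, map_natCast, map_natCast]
  rw [e] at h2
  exact h2

section Abs

variable {I : Subgroup GQ} {N : ℕ} {h1 h10 : Λ} {w : FS N →+* Λ} {p : ℕ} {ζ : Qbˣ}
  {Γ₀ I₀ : Type*} [LinearOrderedCommGroupWithZero Γ₀] {B₀ : Subring (EF I N)}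
  {v₀ : I₀ → Valuation (EF I N) Γ₀}

/-- the branches of `y = (G h₁ - 1)/λ - θ`. -/
theorem CovHyp.sepT_branch (H : CovHyp I (FS N) w p (ζ : Qb) h1 h10)
    (ε : adjF (FS N) h1 →+* Λ)
    (hεC : ∀ c : Qb, ε ⟨HahnSeries.C c, le_adjF _ _ (H.C_mem c)⟩ = HahnSeries.C c)
    (G θ : FS N) (c : Qb) (m : ℕ) :
    ε ((H.kum.deck ^ m) ((⟨HahnSeries.C c, le_adjF _ _ (H.C_mem c)⟩ : adjF (FS N) h1)
        * (⟨G, le_adjF _ _ G.2⟩ * ⟨h1, self_mem_adjF _ _⟩ - 1) - ⟨θ, le_adjF _ _ θ.2⟩))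
      = HahnSeries.C c * (ε ⟨G, le_adjF _ _ G.2⟩
          * (HahnSeries.C (ζ : Qb) ^ m * ε ⟨h1, self_mem_adjF _ _⟩) - 1) - ε ⟨θ, le_adjF _ _ θ.2⟩ := by
  have e1 : (H.kum.deck ^ m) (⟨h1, self_mem_adjF _ _⟩ : adjF (FS N) h1)
      = (⟨HahnSeries.C (ζ : Qb), le_adjF _ _ (H.C_mem _)⟩ : adjF (FS N) h1) ^ m
        * ⟨h1, self_mem_adjF _ _⟩ := Subtype.ext (H.kum.deck_pow_h m)
  simp only [map_sub, map_mul, map_one]
  rw [e1, H.kum.deck_pow_F m G, H.kum.deck_pow_F m θ, H.kum.deck_pow_F m ⟨_, H.C_mem c⟩, map_mul,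
    map_pow, hεC, hεC]

/-- **(SEP), abstract in the two expansions.** -/
theorem CovHyp.sepT_abs (H : CovHyp I (FS N) w p (ζ : Qb) h1 h10) [Fact p.Prime]
    {A : ValuationSubring Qb} (hA : A.LiesOverPrime p) (hζ : IsPrimitiveRoot ζ p)
    (hI : I ≤ A.inertiaSubgroupIn ℚ)
    (ε : I₀ → adjF (FS N) h1 →+* Λ)
    (hεC : ∀ (j : I₀) (c : Qb), ε j ⟨HahnSeries.C c, le_adjF _ _ (H.C_mem c)⟩ = HahnSeries.C c)
    (hε : ∀ (j : I₀) (τ : GQ) (hτ : τ ∈ I) (x : adjF (FS N) h1),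
      galS τ (ε j x) = ε j ⟨galS τ x, H.gal_mem τ hτ x⟩)
    (V : I₀ → Valuation (fixS I (adjF (FS N) h1)) Γ₀)
    (hV : ∀ (j : I₀) (x : EF I N), V j (algebraMap (EF I N) (fixS I (adjF (FS N) h1)) x) = v₀ j x)
    (hle : ∀ (j : I₀) (x : fixS I (adjF (FS N) h1)), (∃ φ, HasRed A (ε j (toF1 x)) φ) → V j x ≤ 1)
    (hlt : ∀ (j : I₀) (x : fixS I (adjF (FS N) h1)), HasRed A (ε j (toF1 x)) 0 → V j x < 1)
    {t : FL Qb N} (htfix : FixS (I : Set GQ) (t : Λ))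
    (hB₀ : ∀ z : EF I N, IsInt Qb t (z : FL Qb N) → (∀ i, v₀ i z ≤ 1) → z ∈ B₀)
    (G θ : FS N) (hGi : IsInt Qb (t : Λ) ((G : Λ) ^ p * h1 ^ p)) (hθi : IsInt Qb (t : Λ) (θ : Λ))
    (a : I₀ → LaurentSeries (kA A)) (n : I₀ → ℕ)
    (hG : ∀ j, P2.Dp A (P2.lam ζ) (ε j ⟨G, le_adjF _ _ G.2⟩) (a j))
    (hh : ∀ j, P2.Dp A (P2.lam ζ) (ε j ⟨h1, self_mem_adjF _ _⟩) (HahnSeries.C (n j : kA A)))
    (hθr : ∀ j, ∃ φ, HasRed A (ε j ⟨θ, le_adjF _ _ θ.2⟩) φ)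
    (i : I₀) (hθa : HasRed A (ε i ⟨θ, le_adjF _ _ θ.2⟩) (a i)) (k l : ZMod p) (hkl : k ≠ l) :
    ∃ b : fixS I (adjF (FS N) h1), IsIntegral B₀ b ∧ vtOf p H.δC V (i, l) b < 1 ∧
      vtOf p H.δC V (i, k) (b - 1) < 1 := by
  have hp : p.Prime := Fact.out
  have : NeZero p := ⟨hp.ne_zero⟩
  have hchar : CharP (kA A) p := charP_residueField hp hA
  set y : adjF (FS N) h1 :=
    (⟨HahnSeries.C (P2.lam ζ)⁻¹, le_adjF _ _ (H.C_mem _)⟩ : adjF (FS N) h1)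
        * (⟨G, le_adjF _ _ G.2⟩ * ⟨h1, self_mem_adjF _ _⟩ - 1) - ⟨θ, le_adjF _ _ θ.2⟩ with hy
  have hbr : ∀ (j : I₀) (m : ℕ) (φ : LaurentSeries (kA A)), HasRed A (ε j ⟨θ, le_adjF _ _ θ.2⟩) φ →
      HasRed A (ε j ((H.kum.deck ^ m) y)) (a j + HahnSeries.C ((m + n j : ℕ) : kA A) - φ) := by
    intro j m φ hφ
    rw [hy, H.sepT_branch (ε j) (hεC j) G θ _ m, sub_eq_add_neg _ φ, sub_eq_add_neg _ (ε j _)]
    have h1 := sepT_red hp hA hζ (hG j) (hh j) m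
    rw [div_eq_inv_mul, ← map_inv₀] at h1
    exact h1.add (hasRed_neg hφ)
  have hCint : ∀ c : Qb, IsInt Qb (t : Λ) (HahnSeries.C c : Λ) := by
    intro c
    rw [← hgc_algebraMap]
    exact IsInt.algebraMap c
  refine H.sepOrb_of_const hI ε hεC hε V hV hle hlt htfix hB₀ y ?_ ?_ i
    (fun m => ((m + n i : ℕ) : kA A)) ?_ k l ?_
  · have h1 : IsInt Qb (t : Λ) ((G : Λ) * h1) := IsInt.of_pow hp.pos (by rw [mul_pow]; exact hGi)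
    exact ((hCint _).mul (h1.sub IsInt.one)).sub hθi
  · intro j m
    obtain ⟨φ, hφ⟩ := hθr j
    exact ⟨_, hbr j m φ hφ⟩
  · intro m
    have := hbr i m _ hθa
    rwa [add_sub_cancel_left] at this
  · intro h
    apply hkl
    have h1 := (CharP.natCast_eq_natCast (kA A) p).1 h
    have h2 : k.val ≡ l.val [MOD p] := Nat.ModEq.add_right_cancel' _ h1
    exact ZMod.val_injective p (Nat.ModEq.eq_of_lt_of_lt h2 (ZMod.val_lt k) (ZMod.val_lt l))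

end Abs

section Conc

variable {M₁ p : ℕ} [NeZero M₁] [NeZero p] {A : ValuationSubring Qb} {ℓ : ℕ} [NeZero ℓ] {e : ℕ}
  {ζ : Qbˣ} {u h1 h10 : Λ}

theorem sepT_wS_C (c : Qb) (hc : (HahnSeries.C c : Λ) ∈ FS (M₁ * p)) :
    wS M₁ p ⟨HahnSeries.C c, hc⟩ = HahnSeries.C c := by
  rw [wS_apply]
  have e : (⟨HahnSeries.C c, hc⟩ : FN (M₁ * p)) = algebraMap Qb (FN (M₁ * p)) c :=
    Subtype.ext (ValThm_coe_algebraMap (M₁ * p) c).symm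
  rw [e, AlgEquiv.commutes, ValThm_coe_algebraMap]

/-- **(SEP)** : the hypothesis `sep` of `covT` / `pdivT`, verbatim. -/
theorem sepT [Fact p.Prime] (P : PrepIn A M₁ p ℓ e ζ u h1)
    (H : CovHyp (IA A) (FS (M₁ * p)) (wS M₁ p) p (ζ : Qb) h1 h10)
    (he : ∀ (j : I2) (x : adjF (FS (M₁ * p)) h1), x ≠ 0 → Nrm A (epsT H j x))
    (i : I2) (k l : ZMod p) (hkl : k ≠ l) :
    ∃ b : fixS (IA A) (adjF (FS (M₁ * p)) h1), IsIntegral (BT M₁ p A) b ∧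
      vtT A H he (i, l) b < 1 ∧ vtT A H he (i, k) (b - 1) < 1 := by
  have hdiv : ∀ Q : Place Qb (FL Qb (M₁ * p)), (p : ℤ) ∣ Q.ord (⟨h1 ^ p, P.kh.pow_mem⟩ : FN (M₁ * p)) :=
    P.kh.2.choose_spec
  have hh10 : h10 ^ p = ((wq M₁ p (⟨h1 ^ p, P.kh.pow_mem⟩ : FN (M₁ * p)) : FN (M₁ * p)) : Λ) := H.pow0
  obtain ⟨G, f, θ, θ', a, a', hG0, hGf, hfi, hf1, hf2, hGa, hGa', t1, t2, t3, t1', t2', t3'⟩ :=
    sepData M₁ p P.hM P.hp P.hp2 P.hpM A P.hA P.hζ ⟨h1 ^ p, P.kh.pow_mem⟩ P.deep P.deep0 hdiv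
  obtain ⟨-, -, -, -, -, -, j, j0, hj, hj0⟩ :=
    f1h_main P.hM P.hp P.hpM A P.hA P.hp2 P.hζ ⟨h1 ^ p, P.kh.pow_mem⟩ P.deep P.deep0 hdiv rfl hh10
  have hw : ∀ f : FS (M₁ * p), wS M₁ p f
      = ((wq M₁ p (⟨f.1, f.2⟩ : FN (M₁ * p)) : FN (M₁ * p)) : Λ) := fun _ => rfl
  have hzrF : ∀ z : FN (M₁ * p), epsT H zr ⟨(z : Λ), le_adjF _ _ z.2⟩
      = ((wq M₁ p z : FN (M₁ * p)) : Λ) := fun z => H.ι0_F ⟨(z : Λ), z.2⟩
  have hGex : ∀ j : I2, ∃ b, P2.Dp A (P2.lam ζ) (epsT H j ⟨(G : Λ), le_adjF _ _ G.2⟩) b := by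
    intro j
    rcases I2_cases j with rfl | rfl
    · exact ⟨a, hGa⟩
    · exact ⟨a', by rw [hzrF]; exact hGa'⟩
  choose aa haa using hGex
  have haoo : aa oo = a := (haa oo).unique hGa
  have hazr : aa zr = a' := (haa zr).unique (by rw [hzrF]; exact hGa')
  have hhex : ∀ j : I2, ∃ n : ℕ, P2.Dp A (P2.lam ζ) (epsT H j ⟨h1, self_mem_adjF _ _⟩)
      (HahnSeries.C (n : kA A)) := by
    intro j
    rcases I2_cases j with rfl | rfl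
    · exact ⟨j, hj⟩
    · exact ⟨j0, by rw [epsT_zr, H.ι0_h]; exact hj0⟩
  choose nn hnn using hhex
  have hGi : IsInt Qb ((tQ M₁ p : FN (M₁ * p)) : Λ) ((G : Λ) ^ p * h1 ^ p) := by
    have h1' : IsInt Qb (tQ M₁ p) (G ^ p * (⟨h1 ^ p, P.kh.pow_mem⟩ : FN (M₁ * p))) := by
      rw [hGf]
      exact IsInt.one.add ((IsInt.algebraMap _).mul hfi)
    exact hgc_isInt_coe h1'
  have key : ∀ (ϑ : FN (M₁ * p)), IsInt Qb (tQ M₁ p) ϑ →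
      (∀ j, ∃ φ, HasRed A (epsT H j ⟨(ϑ : Λ), le_adjF _ _ ϑ.2⟩) φ) →
      HasRed A (epsT H i ⟨(ϑ : Λ), le_adjF _ _ ϑ.2⟩) (aa i) →
      ∃ b : fixS (IA A) (adjF (FS (M₁ * p)) h1), IsIntegral (BT M₁ p A) b ∧
        vtT A H he (i, l) b < 1 ∧ vtT A H he (i, k) (b - 1) < 1 := by
    intro ϑ hϑi hϑr hϑa
    exact H.sepT_abs P.hA P.hζ le_rfl (epsT H) (epsT_C H (fun c => sepT_wS_C c _)) (galS_epsT H)
      (VT A H he) (VT_algebraMap A H he hw) (fun j x h => (VT_le_one_iff A H he j).2 h)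
      (fun j x h => (VT_lt_one_iff A H he j).2 h) (t := tQ M₁ p) (tQ_mem_EC A)
      (fun z hz hv => mem_B2.2 ⟨hz, hv oo, hv zr⟩) ⟨(G : Λ), G.2⟩ ⟨(ϑ : Λ), ϑ.2⟩ hGi
      (hgc_isInt_coe hϑi) aa nn haa hnn hϑr i hϑa k l hkl
  rcases I2_cases i with rfl | rfl
  · refine key θ t1 ?_ (by rw [haoo]; exact t2)
    intro j
    rcases I2_cases j with rfl | rfl
    · exact ⟨a, t2⟩
    · rw [hzrF]
      exact (ValThm_le_one_iff A (M₁ * p)).1 t3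
  · refine key θ' t1' ?_ (by rw [hazr, hzrF]; exact t2')
    intro j
    rcases I2_cases j with rfl | rfl
    · exact (ValThm_le_one_iff A (M₁ * p)).1 t3'
    · rw [hzrF]
      exact ⟨a', t2'⟩

end Conc

end Fermat.Agent.MR.C
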