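import Fermat.Agent.MR.C.J.R0
import Fermat.Agent.MR.C.J.F1
import Fermat.Agent.MR.C.SepB2T
import Fermat.Agent.MR.C.ValHt
import Fermat.Agent.MR.C.AbsValW
import Fermat.Agent.MR.C.ValInd
import Fermat.Agent.MR.C.PrepIn
import Fermat.Agent.MR.Contracts

/-!
# MR / C / J / W : the final assembly of block C  (`cStatementW : MR.CStatement`)

`exists_prepIn` + `PrepIn.out` + `jF1_*` ([F1]) + `sepB2_sepT` (SEP) + `valHt_good` (valuations of `Ht = S^p` on the branches `(i, 0)`)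
+ `exists_norm_of_deck` + `pdivT`.
-/

set_option autoImplicit false

open ModularCurve AlgebraicCurve

noncomputable section

namespace Fermat.Agent.MR.C

open Fermat.Agent.GR Fermat.Agent.GAL Fermat.Agent.GAL.KL Fermat.Agent.GAL.KLC Fermat.Agent.S24
open Fermat.Agent.GR.HeckeField Fermat.Agent.TOR Fermat.Agent.TOR.GB Fermat.Agent.TOR.T1C
open Fermat.Agent.CAR Fermat.Agent.CAR.BK Fermat.Agent.CAR.ON Fermat.Agent.CAR.CNT
open Fermat.Agent.CAR.DESC Fermat.Agent.MR.TH Fermat.Agent.MR.A Fermat.Agent.DSC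
open Fermat.Agent.ORD.P2

local notation "Λ" => LaurentSeries Qb

variable {M₁ p : ℕ} [NeZero M₁] [NeZero p] {A : ValuationSubring Qb} {ℓ : ℕ} [NeZero ℓ] {e : ℕ}
  {ζ : Qbˣ} {u h1 : Λ}

/-- **the upper half of block C.** -/
theorem PrepIn.pdivW (P : PrepIn A M₁ p ℓ e ζ u h1) {c : Qb} {ab : LaurentSeries (kA A)}
    (hab : HasRed A (HahnSeries.C c * u ^ p) ab) (hab0 : ab ≠ 0) : PDiv (Rb A M₁) p ab := by
  haveI : Fact p.Prime := ⟨P.hp⟩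
  obtain ⟨h10, u0, H, a1, S, S0, g, η, m, hG, hGu, ha1, hη, hS, hS0, hSne, hS0ne, hSfix, hS0fix,
    hg, hg0, hgfix, hδ, hm⟩ := P.out
  -- [F1]
  have he : ∀ (j : I2) (x : adjF (FS (M₁ * p)) h1), x ≠ 0 → Nrm A (epsT H j x) := by
    intro j x hx
    rcases I2_cases j with rfl | rfl
    · exact P.jF1_nrm_oo hG x hx
    · exact P.jF1_nrm_zr hG H x hx
  have hw : ∀ f : FS (M₁ * p),
      wS M₁ p f = ((wq M₁ p (⟨f.1, f.2⟩ : FN (M₁ * p)) : FN (M₁ * p)) : Λ) := fun _ => rfl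
  obtain ⟨j, j0, hj, hj0⟩ := P.jF1_dp hG
  -- (SEP)
  have sep := sepB2_sepT (A := A) P.hM P.hp2 P.hpM P.hA P.hζ H he hw P.deep P.deep0
    P.kh.2.choose_spec hj hj0
  have C := covT A H he P.hA hw sep
  have hB := TH.base A P.hM P.hp P.hpM P.hA
  -- `Ht = S ^ p`
  have hSp : S ^ p = u ^ p * (a1 : Λ) ^ p := by rw [hS, mul_pow]
  have hSpF1 : S ^ p ∈ adjF (FS (M₁ * p)) h1 := by
    rw [hSp]
    exact mul_mem (le_adjF _ _ P.ku.pow_mem) (pow_mem a1.2 p)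
  set Ht : fixS (IA A) (adjF (FS (M₁ * p)) h1) :=
    ⟨S ^ p, hSpF1, fun τ hτ => by rw [map_pow, hSfix τ hτ]⟩ with hHt
  set gE : fixS (IA A) (adjF (FS (M₁ * p)) h1) := ⟨g, hg, hgfix⟩ with hgE
  have hto : toF1 Ht = ⟨u ^ p, le_adjF _ _ P.ku.pow_mem⟩ * a1 ^ p := Subtype.ext hSp
  have hrel : H.δ (toF1 Ht) = HahnSeries.C (η ^ p) * g ^ p * S ^ p := by
    rw [hto, map_mul, map_pow, hδ]
    have h1' : H.δ ⟨u ^ p, le_adjF _ _ P.ku.pow_mem⟩ = u ^ p :=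
      H.coverDat.δ_F ⟨u ^ p, P.ku.pow_mem⟩
    rw [h1', hSp, map_pow]
    ring
  have hgp0 : g ^ p * S ^ p ≠ 0 := mul_ne_zero (pow_ne_zero p hg0) (pow_ne_zero p hSne)
  -- the constant `η ^ p` is fixed by inertia
  have hηfix : FixS ((IA A : Subgroup GQ) : Set GQ) (HahnSeries.C (η ^ p) : Λ) := by
    intro τ hτ
    have h1' : galS τ (H.δ (toF1 Ht)) = H.δ (toF1 Ht) := (H.δC Ht).2.2 τ hτ
    have hgS : galS τ (g ^ p * S ^ p) = g ^ p * S ^ p := by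
      rw [map_mul, map_pow, map_pow, hgfix τ hτ, hSfix τ hτ]
    rw [hrel, mul_assoc, map_mul, hgS] at h1'
    exact mul_right_cancel₀ hgp0 h1'
  set c₀ : EC A (M₁ * p) := ⟨algebraMap Qb (FN (M₁ * p)) (η ^ p), by
    show FixS _ _
    rw [ValThm_coe_algebraMap]
    exact hηfix⟩ with hc₀
  set cE : fixS (IA A) (adjF (FS (M₁ * p)) h1) :=
    algebraMap (EC A (M₁ * p)) (fixS (IA A) (adjF (FS (M₁ * p)) h1)) c₀ with hcE
  have hcEc : (cE : Λ) = HahnSeries.C (η ^ p) := ValThm_coe_algebraMap (M₁ * p) _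
  have hδC : H.δC Ht = cE * gE ^ p * Ht := by
    apply Subtype.ext
    rw [H.coe_δC, hrel]
    show _ = (cE : Λ) * g ^ p * S ^ p
    rw [hcEc]
  have hgE0 : gE ≠ 0 := fun h => hg0 (congrArg Subtype.val h)
  have hc : ∀ b, ∃ m : ℤ, vtT A H he b cE = vtT A H he b
      (algebraMap (EC A (M₁ * p)) (fixS (IA A) (adjF (FS (M₁ * p)) h1))
        ((piT M₁ p A : BT M₁ p A) : EC A (M₁ * p))) ^ ((p : ℤ) * m) := by
    rintro ⟨i, k⟩
    refine ⟨m, ?_⟩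
    rw [C.ext, C.ext]
    show vG A (M₁ * p) (wj (wq M₁ p) i (algebraMap Qb (FN (M₁ * p)) (η ^ p)))
      = vG A (M₁ * p) (wj (wq M₁ p) i (((piT M₁ p A : BT M₁ p A) : EC A (M₁ * p)) : FN (M₁ * p)))
        ^ ((p : ℤ) * m)
    rw [coe_piT, AlgEquiv.commutes, AlgEquiv.commutes]
    exact vi_vc_eta (vc := vcG A (M₁ * p)) (vcG_le_one_iff (M₁ * p)) P.hp hm
  -- the branches `(i, 0)`
  obtain ⟨hK1, hK10⟩ := P.jF1_KIH hG (A.inertiaSubgroupIn ℚ)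
  obtain ⟨⟨m1, φ1, hφ1, hr1⟩, ⟨m0, φ0, hφ0, hr0⟩⟩ := valHt_good P.hp P.hA H
    (fun x hx => KIH.FL_le_KF _ hx) (fun f => KIH.FL_le_KF _ (wS_mem f)) hK1 hK10 ℓ e P.he hGu
    hS hS0 hSne hS0ne hSfix hS0fix
  have hϖ : ∀ i, eT H i (algebraMap (EC A (M₁ * p)) (fixS (IA A) (adjF (FS (M₁ * p)) h1))
      ((piT M₁ p A : BT M₁ p A) : EC A (M₁ * p))) = HahnSeries.C (p : Qb) := by
    intro i
    have h1' : ((piT M₁ p A : BT M₁ p A) : EC A (M₁ * p)) = ((p : ℕ) : EC A (M₁ * p)) := rfl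
    rw [h1', map_natCast, map_natCast, map_natCast]
  have hι0 : eT H zr Ht = S0 ^ p := by
    obtain ⟨-, -, ⟨U, hU, hU0⟩, -⟩ := hGu
    show H.ι0 (toF1 Ht) = S0 ^ p
    have hUe : (⟨u ^ p, le_adjF _ _ P.ku.pow_mem⟩ : adjF (FS (M₁ * p)) h1)
        = ⟨U, le_adjF _ _ U.2⟩ := Subtype.ext hU
    rw [hto, map_mul, map_pow, hUe, H.ι0_F, hS0, mul_pow, hU0]
  have h0 : ∀ i, ∃ m : ℤ, vtT A H he (i, 0) Ht = vtT A H he (i, 0)
      (algebraMap (EC A (M₁ * p)) (fixS (IA A) (adjF (FS (M₁ * p)) h1))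
        ((piT M₁ p A : BT M₁ p A) : EC A (M₁ * p))) ^ ((p : ℤ) * m) := by
    intro i
    rw [vtT_zero, vtT_zero]
    rcases I2_cases i with rfl | rfl
    · exact ⟨-m1, valHt_gaussV (vcG_le_one_iff (M₁ * p)) (eT H oo) (nrm_eT A H he oo) P.hp
        (hϖ oo) hφ1 hr1⟩
    · refine ⟨-m0, valHt_gaussV (vcG_le_one_iff (M₁ * p)) (eT H zr) (nrm_eT A H he zr) P.hp
        (hϖ zr) hφ0 ?_⟩
      rw [hι0]
      exact hr0
  obtain ⟨e', he', hW⟩ := exists_norm_of_deck hB C p hgE0 hc hδC h0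
  refine pdivT A H he P.hM P.hpM P.hA hw sep (W := Ht * e' ^ p) hW P.ku
    (b := (a1 : Λ) * (e' : Λ)) (mul_mem a1.2 e'.2.1) (mul_ne_zero ?_ ?_) ?_ hab hab0
  · exact fun h => ha1 (Subtype.ext h)
  · exact fun h => he' (Subtype.ext h)
  · show S ^ p * (e' : Λ) ^ p = u ^ p * ((a1 : Λ) * (e' : Λ)) ^ p
    rw [hSp]
    ring

/-- **BLOCK C.** -/
theorem cStatementW : MR.CStatement := by
  intro M₁ p _ _ hM hp hp5 hpM A hA u u₁ hu hu₁ _ hu₁n g1 g2 g3 g4 _ hU₁ _ hnew₁ c ab hab hab0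
  have hp2 : p ≠ 2 := by omega
  obtain ⟨ζ, hζ⟩ := exists_primitiveRoot_Qb p
  obtain ⟨ℓ, _, e, c0, h1, hc0, P⟩ := exists_prepIn hM hp hp2 hpM A hA hζ hu hu₁ hu₁n g1 g2 g3 g4
    hU₁ (hnew₁ hu₁.pow_mem)
  refine P.pdivW (c := c / c0 ^ p) ?_ hab0
  have e1 : HahnSeries.C (c / c0 ^ p) * (HahnSeries.C c0 * u) ^ p = HahnSeries.C c * u ^ p := by
    have hC0 : (HahnSeries.C c0 : Λ) ≠ 0 := GV_C_ne_zero hc0
    rw [map_div₀, map_pow, mul_pow]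
    field_simp
  rw [e1]
  exact hab

end Fermat.Agent.MR.C
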